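import Mathlib

/-!
# A2 / COUNT (helper261) — the tower formula for discriminants

`R ⊆ S ⊆ T` commutative rings, `S` free over `R` with finite basis `b`, `T` free over `S` with
finite basis `c`.  Then

  `discr R (b.smulTower' c) = (discr R b) ^ #κ * norm_{S/R} (discr S c)`.

Mathlib-only.
-/

set_option autoImplicit false

namespace Fermat.Agent.A2.H261

open Matrix Module
open scoped Kronecker

variable {R S T : Type*} [CommRing R] [CommRing S] [CommRing T]
  [Algebra R S] [Algebra S T] [Algebra R T] [IsScalarTower R S T]
  {ι κ : Type*} [Fintype ι] [Fintype κ] [DecidableEq ι] [DecidableEq κ]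

/-- The Gram matrix of the tower basis is `(1 ⊗ G_b) * comp (f (τ))` where `f` is the regular
representation of `S` in the basis `b` and `τ` the Gram matrix of `c` over `S`. -/
theorem traceMatrix_smulTower' (b : Basis ι R S) (c : Basis κ S T) :
    Algebra.traceMatrix R (b.smulTower' c) =
      ((1 : Matrix κ κ R) ⊗ₖ Algebra.traceMatrix R b) *
        ((Algebra.traceMatrix S c).map (Algebra.leftMulMatrix b)).comp κ κ ι ι R := by
  have : Module.Free R S := Module.Free.of_basis b
  have : Module.Finite R S := Module.Finite.of_basis b
  have : Module.Free S T := Module.Free.of_basis c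
  have : Module.Finite S T := Module.Finite.of_basis c
  ext ⟨j, i⟩ ⟨l, k⟩
  rw [Matrix.mul_apply]
  simp only [Algebra.traceMatrix_apply, Algebra.traceForm_apply, Basis.smulTower'_apply,
    Matrix.comp_apply, Matrix.map_apply, Matrix.kroneckerMap_apply, Matrix.one_apply]
  rw [Fintype.sum_prod_type]
  simp only [ite_mul, one_mul, zero_mul]
  rw [Finset.sum_eq_single j]
  · simp only [if_true]
    -- `trace R T ((b i • c j) * (b k • c l)) = trace R S (b i * (τ_{jl} * b k))`
    have h1 : (b i • c j) * (b k • c l) = (b i * b k) • (c j * c l) := by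
      rw [smul_mul_smul_comm]
    rw [h1, ← Algebra.trace_trace (S := S), map_smul, smul_eq_mul]
    set τ := Algebra.trace S T (c j * c l) with hτ
    have h2 : b i * b k * τ = b i * (τ * b k) := by ring
    rw [h2]
    have h3 : τ * b k = ∑ a, (Algebra.leftMulMatrix b τ) a k • b a := by
      have := Algebra.leftMulMatrix_mulVec_repr b τ (b k)
      have h4 : τ * b k = ∑ a, (b.repr (τ * b k)) a • b a := (b.sum_repr _).symm
      rw [h4]
      refine Finset.sum_congr rfl fun a _ => ?_
      congr 1
      rw [Algebra.leftMulMatrix_eq_repr_mul]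
    rw [h3, Finset.mul_sum, map_sum]
    refine Finset.sum_congr rfl fun a _ => ?_
    rw [mul_smul_comm, map_smul, smul_eq_mul, mul_comm]
  · intro j' _ hj'
    simp [Ne.symm hj']
  · intro h
    exact absurd (Finset.mem_univ j) h

/-- **Tower formula for discriminants.** -/
theorem discr_smulTower' (b : Basis ι R S) (c : Basis κ S T) :
    Algebra.discr R (b.smulTower' c) =
      Algebra.discr R b ^ Fintype.card κ * Algebra.norm R (Algebra.discr S c) := by
  rw [Algebra.discr_def, traceMatrix_smulTower', Matrix.det_mul, Matrix.det_kronecker,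
    Matrix.det_one, one_pow, one_mul, ← Algebra.discr_def]
  congr 1
  rw [Algebra.norm_eq_matrix_det b, Algebra.discr_def]
  have := Matrix.det_det (M := Algebra.traceMatrix S c)
    ((Algebra.leftMulMatrix b : S →ₐ[R] Matrix ι ι R) : S →+* Matrix ι ι R)
  simpa using this.symm

end Fermat.Agent.A2.H261
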