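import Mathlib
import Fermat.Agent.A2.H261.Tower
import Fermat.Agent.S18.B12.H203.DiscrRed
import Fermat.Agent.S18.B12.H93.LocalBasisRank

/-!
# A2 / COUNT (helper261) — the tower formula for integral discriminants (quasi-bases)

`P ⊆ B ⊆ B'` integrally closed domains, finite and torsion free.  `x` a quasi-basis of `B` over `P`
(`g • B ⊆ span_P x`, linearly independent), `c` a quasi-basis of `B'` over `B`.  Then

  `det (intTrace P B' ((x i • c j) * (x k • c l))) = (det (intTrace P B (x i * x k))) ^ h *
      intNorm P B (det (intTrace B B' (c j * c l)))`.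
-/

set_option autoImplicit false
set_option linter.unusedSectionVars false
set_option linter.unusedVariables false
set_option linter.style.haveILetI false

noncomputable section

namespace Fermat.Agent.A2.H261

open Matrix Module Fermat.Agent.S18.B12

universe u v v'

section Generic

variable {P : Type*} {B : Type*} {B' : Type*} [CommRing P] [IsDomain P] [CommRing B] [IsDomain B]
  [CommRing B'] [Algebra P B] [Algebra B B'] [Algebra P B'] [IsScalarTower P B B']
  (K F L : Type*) [Field K] [Field F] [Field L]
  [Algebra P K] [IsFractionRing P K]
  [Algebra K F] [Algebra P F] [IsScalarTower P K F] [Algebra B F] [IsScalarTower P B F]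
  [IsIntegralClosure B P F] [Algebra.IsAlgebraic K F] [IsFractionRing B F]
  [Algebra F L] [Algebra K L] [IsScalarTower K F L] [Algebra B L] [IsScalarTower B F L]
  [Algebra B' L] [IsScalarTower B B' L] [IsIntegralClosure B' B L] [Algebra.IsAlgebraic F L]
  {ι κ : Type*} [Fintype ι] [Fintype κ] [DecidableEq ι] [DecidableEq κ]

/-- Tower formula in the generic fibre, for quasi-bases. -/
theorem discr_tower_quasi
    (x : ι → B) (hx : LinearIndependent P x) (g : P) (hg : g ≠ 0)
    (hgx : ∀ b : B, g • b ∈ Submodule.span P (Set.range x))
    (c : κ → B') (hc : LinearIndependent B c) (g' : B) (hg' : g' ≠ 0)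
    (hgc : ∀ b' : B', g' • b' ∈ Submodule.span B (Set.range c)) :
    Algebra.discr K (fun p : κ × ι => algebraMap B' L (x p.2 • c p.1)) =
      Algebra.discr K (fun i => algebraMap B F (x i)) ^ Fintype.card κ *
        Algebra.norm K (Algebra.discr F (fun j => algebraMap B' L (c j))) := by
  set bx := H203.quasiBasis K F x hx g hg hgx with hbx
  set bc := H203.quasiBasis F L c hc g' hg' hgc with hbc
  have h1 := discr_smulTower' bx bc
  have e1 : (fun p : κ × ι => algebraMap B' L (x p.2 • c p.1)) = ⇑(bx.smulTower' bc) := by
    funext p
    rw [Basis.smulTower'_apply, hbx, hbc, H203.quasiBasis_apply, H203.quasiBasis_apply,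
      Algebra.smul_def, Algebra.smul_def, map_mul, ← IsScalarTower.algebraMap_apply,
      ← IsScalarTower.algebraMap_apply B F L]
  have e2 : (fun i => algebraMap B F (x i)) = ⇑bx := by
    funext i; rw [hbx, H203.quasiBasis_apply]
  have e3 : (fun j => algebraMap B' L (c j)) = ⇑bc := by
    funext j; rw [hbc, H203.quasiBasis_apply]
  rw [e1, e2, e3]
  exact h1

end Generic

end Fermat.Agent.A2.H261

noncomputable section

namespace Fermat.Agent.A2.H261

open Matrix Module Fermat.Agent.S18.B12

universe u v v'

section Int

variable (P : Type u) [CommRing P] [IsDomain P] [IsIntegrallyClosed P]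
  (B : Type v) [CommRing B] [IsDomain B] [IsIntegrallyClosed B] [Algebra P B]
  [Module.Finite P B] [Module.IsTorsionFree P B]

/-- Gram determinant of the integral trace form of a finite family (any index type). -/
def gramDet {ι : Type*} [Fintype ι] [DecidableEq ι] (x : ι → B) : P :=
  (Matrix.of fun i j => Algebra.intTrace P B (x i * x j)).det

theorem gramDet_fin {n : ℕ} (x : Fin n → B) : gramDet P B x = intDiscr P B x := by
  unfold gramDet intDiscr
  congr

theorem gramDet_reindex {ι ι' : Type*} [Fintype ι] [DecidableEq ι] [Fintype ι'] [DecidableEq ι']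
    (e : ι' ≃ ι) (x : ι → B) : gramDet P B (x ∘ e) = gramDet P B x := by
  unfold gramDet
  have : (Matrix.of fun i j => Algebra.intTrace P B ((x ∘ e) i * (x ∘ e) j)) =
      (Matrix.of fun i j => Algebra.intTrace P B (x i * x j)).submatrix e e := by
    ext i j; rfl
  rw [this, Matrix.det_submatrix_equiv_self]

open nonZeroDivisors in
theorem algebraMap_gramDet {ι : Type*} [Fintype ι] [DecidableEq ι] (x : ι → B) :
    letI : Algebra (FractionRing P) (FractionRing B) := FractionRing.liftAlgebra P _
    algebraMap P (FractionRing P) (gramDet P B x) =
      Algebra.discr (FractionRing P) (fun i => algebraMap B (FractionRing B) (x i)) := by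
  letI : Algebra (FractionRing P) (FractionRing B) := FractionRing.liftAlgebra P _
  show algebraMap P (FractionRing P) (gramDet P B x) = _
  unfold gramDet
  rw [RingHom.map_det, Algebra.discr_def]
  congr 1
  ext i j
  simp only [RingHom.mapMatrix_apply, Matrix.map_apply, Matrix.of_apply,
    Algebra.traceMatrix_apply, Algebra.traceForm_apply]
  rw [Algebra.algebraMap_intTrace_fractionRing, map_mul]

variable (B' : Type v') [CommRing B'] [IsDomain B'] [IsIntegrallyClosed B'] [Algebra P B']
  [Module.Finite P B'] [Module.IsTorsionFree P B'] [Algebra B B'] [IsScalarTower P B B']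
  [Module.Finite B B'] [Module.IsTorsionFree B B']

/-- **Tower formula for Gram determinants of quasi-bases.** -/
theorem gramDet_tower {ι κ : Type*} [Fintype ι] [Fintype κ] [DecidableEq ι] [DecidableEq κ]
    (x : ι → B) (hx : LinearIndependent P x) (g : P) (hg : g ≠ 0)
    (hgx : ∀ b : B, g • b ∈ Submodule.span P (Set.range x))
    (c : κ → B') (hc : LinearIndependent B c) (g' : B) (hg' : g' ≠ 0)
    (hgc : ∀ b' : B', g' • b' ∈ Submodule.span B (Set.range c)) :
    gramDet P B' (fun p : κ × ι => x p.2 • c p.1) =
      gramDet P B x ^ Fintype.card κ * Algebra.intNorm P B (gramDet B B' c) := by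
  letI : Algebra (FractionRing P) (FractionRing B) := FractionRing.liftAlgebra P _
  letI : Algebra (FractionRing B) (FractionRing B') := FractionRing.liftAlgebra B _
  letI : Algebra (FractionRing P) (FractionRing B') := FractionRing.liftAlgebra P _
  have t1 : IsScalarTower P (FractionRing P) (FractionRing B) :=
    FractionRing.isScalarTower_liftAlgebra P (FractionRing B)
  have t2 : IsScalarTower B (FractionRing B) (FractionRing B') :=
    FractionRing.isScalarTower_liftAlgebra B (FractionRing B')
  have t3 : IsScalarTower P (FractionRing P) (FractionRing B') :=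
    FractionRing.isScalarTower_liftAlgebra P (FractionRing B')
  have t4 : IsScalarTower (FractionRing P) (FractionRing B) (FractionRing B') := by
    refine IsScalarTower.of_algebraMap_eq' ?_
    refine IsLocalization.ringHom_ext (nonZeroDivisors P) ?_
    ext p
    simp only [RingHom.coe_comp, Function.comp_apply]
    rw [← IsScalarTower.algebraMap_apply P (FractionRing P) (FractionRing B'),
      ← IsScalarTower.algebraMap_apply P (FractionRing P) (FractionRing B),
      IsScalarTower.algebraMap_apply P B (FractionRing B),
      ← IsScalarTower.algebraMap_apply B (FractionRing B) (FractionRing B'),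
      IsScalarTower.algebraMap_apply P B' (FractionRing B'),
      IsScalarTower.algebraMap_apply B B' (FractionRing B'),
      ← IsScalarTower.algebraMap_apply P B B']
  have : IsIntegralClosure B P (FractionRing B) :=
    IsIntegralClosure.of_isIntegrallyClosed _ _ _
  have : IsIntegralClosure B' B (FractionRing B') :=
    IsIntegralClosure.of_isIntegrallyClosed _ _ _
  have : Algebra.IsAlgebraic (FractionRing P) (FractionRing B) :=
    isAlgebraic_of_isFractionRing P B ..
  have : Algebra.IsAlgebraic (FractionRing B) (FractionRing B') :=
    isAlgebraic_of_isFractionRing B B' ..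
  apply IsFractionRing.injective P (FractionRing P)
  rw [map_mul, map_pow, algebraMap_gramDet, algebraMap_gramDet,
    Algebra.algebraMap_intNorm_fractionRing, algebraMap_gramDet]
  exact discr_tower_quasi (FractionRing P) (FractionRing B) (FractionRing B') x hx g hg hgx
    c hc g' hg' hgc

end Int

end Fermat.Agent.A2.H261
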