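import Mathlib
import Fermat.Agent.A2.H261.TowerInt

/-!
# A2 / COUNT (helper261) — C-DISC: discriminant of a cover which is étale in codimension one

`P ⊆ B ⊆ B'` integrally closed domains, finite and torsion free over `P` (B12 framework of
`S18/B12/Spec2.lean`).

* `intDiscr_cover_local` : at a prime `𝔭` of `P`, if `B'` has a *local étale basis* over `B` at `𝔭`
  (a quasi-basis `c : Fin h → B'` over `B` whose Gram determinant divides an element of `P ∖ 𝔭`),
  then for local bases `x`, `x'` of `B`, `B'` at `𝔭`: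
  `u' * intDiscr x' = u * (intDiscr x) ^ h` with `u, u' ∉ 𝔭`.
* `intDiscr_cover` : the same at any prime `𝔪` of a UFD `P`, if the hypothesis holds at `(π)` for
  every prime element `π ∈ 𝔪` (algebraic Hartogs for the two discriminants).
-/

set_option autoImplicit false
set_option linter.unusedSectionVars false
set_option linter.unusedVariables false
set_option linter.style.haveILetI false

noncomputable section

namespace Fermat.Agent.A2.H261

open Matrix Module Fermat.Agent.S18.B12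

universe u v v'

variable (P : Type u) [CommRing P] [IsDomain P] [IsIntegrallyClosed P]
  (B : Type v) [CommRing B] [IsDomain B] [IsIntegrallyClosed B] [Algebra P B]
  [Module.Finite P B] [Module.IsTorsionFree P B]
  (B' : Type v') [CommRing B'] [IsDomain B'] [IsIntegrallyClosed B'] [Algebra P B']
  [Module.Finite P B'] [Module.IsTorsionFree P B'] [Algebra B B'] [IsScalarTower P B B']
  [Module.Finite B B'] [Module.IsTorsionFree B B']

/-- `B'` has a *local étale basis* of rank `h` over `B` at the prime `𝔭` of `P`: a `B`-linearly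
independent family `c : Fin h → B'` with `g • B' ⊆ span_B c` for some `g ∉ 𝔭`, whose Gram
determinant (for the trace form of `B'/B`) divides an element of `P ∖ 𝔭`. -/
def HasLocalEtaleBasis (𝔭 : Ideal P) (h : ℕ) : Prop :=
  ∃ c : Fin h → B', LinearIndependent B c ∧
    (∃ g : P, g ∉ 𝔭 ∧ ∀ b' : B', g • b' ∈ Submodule.span B (Set.range c)) ∧
    ∃ (e : B) (g₁ : P), g₁ ∉ 𝔭 ∧ e * gramDet B B' c = algebraMap P B g₁

variable {P B B'}

/-- The product family of a local basis of `B/P` and a local basis of `B'/B` is a local basis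
of `B'/P`. -/
theorem isLocalBasis_prod (𝔭 : Ideal P) [𝔭.IsPrime] {n h : ℕ} {x : Fin n → B}
    (hx : IsLocalBasis P B 𝔭 n x) {c : Fin h → B'} (hc : LinearIndependent B c)
    {g : P} (hg : g ∉ 𝔭) (hgc : ∀ b' : B', g • b' ∈ Submodule.span B (Set.range c)) :
    IsLocalBasis P B' 𝔭 (h * n)
      ((fun p : Fin h × Fin n => x p.2 • c p.1) ∘ finProdFinEquiv.symm) := by
  obtain ⟨hli, g₀, hg₀, hg₀x⟩ := hx
  refine ⟨?_, g₀ * g, fun hmem => ?_, ?_⟩
  · have h1 : LinearIndependent P fun p : Fin n × Fin h => x p.1 • c p.2 :=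
      linearIndependent_smul hli hc
    have h2 : LinearIndependent P fun p : Fin h × Fin n => x p.2 • c p.1 :=
      (linearIndependent_equiv' (Equiv.prodComm (Fin h) (Fin n))
        (f := fun p : Fin n × Fin h => x p.1 • c p.2)
        (g := fun p : Fin h × Fin n => x p.2 • c p.1) rfl).mpr h1
    exact (linearIndependent_equiv finProdFinEquiv.symm).mpr h2
  · rcases Ideal.IsPrime.mem_or_mem inferInstance hmem with h1 | h1
    · exact hg₀ h1
    · exact hg h1
  · intro b'
    obtain ⟨a, ha⟩ := (Submodule.mem_span_range_iff_exists_fun B).mp (hgc b')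
    have hcoef : ∀ j, ∃ r : Fin n → P, ∑ i, r i • x i = g₀ • a j :=
      fun j => (Submodule.mem_span_range_iff_exists_fun P).mp (hg₀x (a j))
    choose r hr using hcoef
    have key : (g₀ * g) • b' = ∑ j, ∑ i, r j i • (x i • c j) := by
      rw [mul_smul, ← ha, Finset.smul_sum]
      refine Finset.sum_congr rfl fun j _ => ?_
      rw [← smul_assoc, ← hr j, Finset.sum_smul]
      refine Finset.sum_congr rfl fun i _ => ?_
      rw [smul_assoc]
    rw [key]
    refine Submodule.sum_mem _ fun j _ => Submodule.sum_mem _ fun i _ => ?_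
    refine Submodule.smul_mem _ _ (Submodule.subset_span ⟨finProdFinEquiv (j, i), ?_⟩)
    simp

/-- **C-DISC, local form.** -/
theorem intDiscr_cover_local (𝔭 : Ideal P) [𝔭.IsPrime] {n : ℕ} {x : Fin n → B}
    (hx : IsLocalBasis P B 𝔭 n x) (hD : intDiscr P B x ≠ 0)
    {n' : ℕ} {x' : Fin n' → B'} (hx' : IsLocalBasis P B' 𝔭 n' x')
    {h : ℕ} (hét : HasLocalEtaleBasis P B B' 𝔭 h) :
    ∃ u u' : P, u ∉ 𝔭 ∧ u' ∉ 𝔭 ∧ u' * intDiscr P B' x' = u * intDiscr P B x ^ h := by
  classical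
  obtain ⟨c, hc, ⟨g, hg, hgc⟩, e, g₁, hg₁, he⟩ := hét
  have hx0 := hx
  obtain ⟨hli, g₀, hg₀, hg₀x⟩ := hx
  have hg0 : g ≠ 0 := fun h0 => hg (h0 ▸ 𝔭.zero_mem)
  have hg₀0 : g₀ ≠ 0 := fun h0 => hg₀ (h0 ▸ 𝔭.zero_mem)
  have hg₁0 : g₁ ≠ 0 := fun h0 => hg₁ (h0 ▸ 𝔭.zero_mem)
  have hinjPB : Function.Injective (algebraMap P B) :=
    FaithfulSMul.algebraMap_injective P B
  -- Step 1: the tower formula
  have htower := gramDet_tower P B B' x hli g₀ hg₀0 hg₀x c hc (algebraMap P B g)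
    (by simpa using (map_ne_zero_iff _ hinjPB).mpr hg0)
    (fun b' => by
      have := hgc b'
      rwa [← algebraMap_smul B g b'] at this)
  rw [Fintype.card_fin, gramDet_fin] at htower
  set ν := Algebra.intNorm P B (gramDet B B' c) with hν
  -- Step 2: `ν ∉ 𝔭`
  have hνmem : ν ∉ 𝔭 := by
    intro hmem
    have h1 : Algebra.intNorm P B e * ν = Algebra.intNorm P B (algebraMap P B g₁) := by
      rw [hν, ← map_mul, he]
    have h2 : ∃ N : ℕ, Algebra.intNorm P B (algebraMap P B g₁) = g₁ ^ N := by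
      letI : Algebra (FractionRing P) (FractionRing B) := FractionRing.liftAlgebra P _
      have : IsScalarTower P (FractionRing P) (FractionRing B) :=
        FractionRing.isScalarTower_liftAlgebra P (FractionRing B)
      refine ⟨Module.finrank (FractionRing P) (FractionRing B), ?_⟩
      apply IsFractionRing.injective P (FractionRing P)
      rw [Algebra.algebraMap_intNorm_fractionRing, map_pow,
        ← IsScalarTower.algebraMap_apply P B (FractionRing B),
        IsScalarTower.algebraMap_apply P (FractionRing P) (FractionRing B),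
        Algebra.norm_algebraMap]
    obtain ⟨N, hN⟩ := h2
    have h3 : g₁ ^ N ∈ 𝔭 := by
      rw [← hN, ← h1]
      exact 𝔭.mul_mem_left _ hmem
    exact hg₁ (Ideal.IsPrime.mem_of_pow_mem inferInstance N h3)
  -- Step 3: the product family is a local basis, so `n' = h * n`
  have hprod := isLocalBasis_prod 𝔭 hx0 hc hg hgc
  have hn1 := (H93.localBasisRank P B' 𝔭 n' x' hx').1
  have hn2 := (H93.localBasisRank P B' 𝔭 (h * n) _ hprod).1
  have hnn : n' = h * n := hn1.trans hn2.symm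
  subst hnn
  set x'' : Fin (h * n) → B' :=
    (fun p : Fin h × Fin n => x p.2 • c p.1) ∘ finProdFinEquiv.symm with hx''
  have hD'' : intDiscr P B' x'' = intDiscr P B x ^ h * ν := by
    rw [← gramDet_fin, hx'', gramDet_reindex, htower]
  have hD''0 : intDiscr P B' x'' ≠ 0 := by
    rw [hD'']
    exact mul_ne_zero (pow_ne_zero _ hD) (fun h0 => hνmem (h0 ▸ 𝔭.zero_mem))
  -- Step 4: compare `x'` and `x''`
  obtain ⟨g₂, u₂, hg₂, h2⟩ := (H93.localBasisRank P B' 𝔭 (h * n) x' hx').2 x''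
  obtain ⟨g₃, u₃, hg₃, h3⟩ := (H93.localBasisRank P B' 𝔭 (h * n) x'' hprod).2 x'
  -- `g₂² D'' = u₂² D'`, `g₃² D' = u₃² D''`
  have hu₂ : u₂ ∉ 𝔭 := by
    intro hmem
    have h4 : (g₂ * g₃) ^ 2 * intDiscr P B' x'' = (u₂ * u₃) ^ 2 * intDiscr P B' x'' := by
      calc (g₂ * g₃) ^ 2 * intDiscr P B' x''
          = g₃ ^ 2 * (g₂ ^ 2 * intDiscr P B' x'') := by ring
        _ = g₃ ^ 2 * (u₂ ^ 2 * intDiscr P B' x') := by rw [h2]
        _ = u₂ ^ 2 * (g₃ ^ 2 * intDiscr P B' x') := by ring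
        _ = u₂ ^ 2 * (u₃ ^ 2 * intDiscr P B' x'') := by rw [h3]
        _ = (u₂ * u₃) ^ 2 * intDiscr P B' x'' := by ring
    have h5 : (g₂ * g₃) ^ 2 = (u₂ * u₃) ^ 2 := mul_right_cancel₀ hD''0 h4
    have h6 : (g₂ * g₃) ^ 2 ∈ 𝔭 := by
      rw [h5]
      exact Ideal.pow_mem_of_mem _ (𝔭.mul_mem_right _ hmem) 2 (by norm_num)
    have h7 := Ideal.IsPrime.mem_of_pow_mem inferInstance 2 h6
    rcases Ideal.IsPrime.mem_or_mem inferInstance h7 with h8 | h8
    · exact hg₂ h8
    · exact hg₃ h8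
  refine ⟨g₂ ^ 2 * ν, u₂ ^ 2, ?_, ?_, ?_⟩
  · intro hmem
    rcases Ideal.IsPrime.mem_or_mem inferInstance hmem with h8 | h8
    · exact hg₂ (Ideal.IsPrime.mem_of_pow_mem inferInstance 2 h8)
    · exact hνmem h8
  · intro hmem
    exact hu₂ (Ideal.IsPrime.mem_of_pow_mem inferInstance 2 hmem)
  · rw [← h2, hD'']
    ring

/-- A local basis at `𝔪` is a local basis at every prime contained in `𝔪`. -/
theorem isLocalBasis_of_le {P : Type*} {B : Type*} [CommRing P] [CommRing B] [Algebra P B]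
    {𝔪 𝔭 : Ideal P} (hle : 𝔭 ≤ 𝔪) {n : ℕ} {x : Fin n → B}
    (hx : IsLocalBasis P B 𝔪 n x) : IsLocalBasis P B 𝔭 n x := by
  obtain ⟨hli, g, hg, hgx⟩ := hx
  exact ⟨hli, g, fun h => hg (hle h), hgx⟩

/-- In a UFD, an element of a prime ideal which is neither zero nor a unit has a prime factor
in the ideal. -/
theorem exists_prime_dvd_mem {P : Type*} [CommRing P] [IsDomain P] [UniqueFactorizationMonoid P]
    (𝔪 : Ideal P) [𝔪.IsPrime] {a : P} (ha0 : a ≠ 0) (ha : a ∈ 𝔪) :
    ∃ π : P, Prime π ∧ π ∣ a ∧ π ∈ 𝔪 := by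
  classical
  obtain ⟨f, hf, hfa⟩ := UniqueFactorizationMonoid.exists_prime_factors a ha0
  have hprod : f.prod ∈ 𝔪 := by
    obtain ⟨u, hu⟩ := hfa.symm
    rw [← hu]
    exact 𝔪.mul_mem_right _ ha
  obtain ⟨π, hπf, hπ⟩ := (Ideal.IsPrime.multiset_prod_mem_iff_exists_mem inferInstance f).mp hprod
  exact ⟨π, hf π hπf, (Multiset.dvd_prod hπf).trans hfa.dvd, hπ⟩

/-- **C-DISC.**  `P` a UFD, `𝔪` a prime of `P`, `x`, `x'` local bases of `B`, `B'` at `𝔪` with
nonzero discriminants.  If `B'` has a local étale basis of rank `h` over `B` at `(π)` for every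
prime element `π ∈ 𝔪`, then `u' * intDiscr x' = u * (intDiscr x) ^ h` with `u, u' ∉ 𝔪`. -/
theorem intDiscr_cover [UniqueFactorizationMonoid P] (𝔪 : Ideal P) [𝔪.IsPrime] {n : ℕ}
    {x : Fin n → B} (hx : IsLocalBasis P B 𝔪 n x) (hD : intDiscr P B x ≠ 0)
    {n' : ℕ} {x' : Fin n' → B'} (hx' : IsLocalBasis P B' 𝔪 n' x')
    (hD' : intDiscr P B' x' ≠ 0) {h : ℕ}
    (hét : ∀ π : P, Prime π → π ∈ 𝔪 → HasLocalEtaleBasis P B B' (Ideal.span {π}) h) :
    ∃ u u' : P, u ∉ 𝔪 ∧ u' ∉ 𝔪 ∧ u' * intDiscr P B' x' = u * intDiscr P B x ^ h := by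
  classical
  set D' := intDiscr P B' x' with hD'def
  set Y := intDiscr P B x ^ h with hY
  have hY0 : Y ≠ 0 := pow_ne_zero _ hD
  obtain ⟨a', b', c', hrel, ha', hb'⟩ :=
    UniqueFactorizationMonoid.exists_reduced_factors' D' Y hY0
  have hc'0 : c' ≠ 0 := fun h0 => hY0 (by rw [← hb', h0, zero_mul])
  have ha'0 : a' ≠ 0 := fun h0 => hD' (by rw [← ha', h0, mul_zero])
  have hb'0 : b' ≠ 0 := fun h0 => hY0 (by rw [← hb', h0, mul_zero])
  -- the local relation at a prime element of `𝔪`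
  have hloc : ∀ π : P, Prime π → π ∈ 𝔪 → ∃ u u' : P, ¬ π ∣ u ∧ ¬ π ∣ u' ∧ u' * a' = u * b' := by
    intro π hπ hπm
    haveI : (Ideal.span {π}).IsPrime := (Ideal.span_singleton_prime hπ.ne_zero).mpr hπ
    have hle : Ideal.span {π} ≤ 𝔪 := (Ideal.span_singleton_le_iff_mem _).mpr hπm
    obtain ⟨u, u', hu, hu', huu⟩ := intDiscr_cover_local (Ideal.span {π})
      (isLocalBasis_of_le hle hx) hD (isLocalBasis_of_le hle hx') (hét π hπ hπm)
    refine ⟨u, u', fun hd => hu (Ideal.mem_span_singleton.mpr hd),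
      fun hd => hu' (Ideal.mem_span_singleton.mpr hd), ?_⟩
    have h1 : c' * (u' * a') = c' * (u * b') := by
      calc c' * (u' * a') = u' * (c' * a') := by ring
        _ = u' * D' := by rw [ha']
        _ = u * Y := huu
        _ = u * (c' * b') := by rw [hb']
        _ = c' * (u * b') := by ring
    exact mul_left_cancel₀ hc'0 h1
  refine ⟨a', b', ?_, ?_, ?_⟩
  · intro hmem
    obtain ⟨π, hπ, hπa, hπm⟩ := exists_prime_dvd_mem 𝔪 ha'0 hmem
    obtain ⟨u, u', hu, hu', huu⟩ := hloc π hπ hπm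
    have h1 : π ∣ u * b' := by
      rw [← huu]
      exact Dvd.dvd.mul_left hπa _
    rcases hπ.dvd_or_dvd h1 with h2 | h2
    · exact hu h2
    · exact hπ.not_isUnit (hrel hπa h2)
  · intro hmem
    obtain ⟨π, hπ, hπb, hπm⟩ := exists_prime_dvd_mem 𝔪 hb'0 hmem
    obtain ⟨u, u', hu, hu', huu⟩ := hloc π hπ hπm
    have h1 : π ∣ u' * a' := by
      rw [huu]
      exact Dvd.dvd.mul_left hπb _
    rcases hπ.dvd_or_dvd h1 with h2 | h2
    · exact hu' h2
    · exact hπ.not_isUnit (hrel h2 hπb)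
  · rw [← ha', ← hb']
    ring

end Fermat.Agent.A2.H261
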